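import Fermat.Agent.LT.T6.H865.TwEllSpec
import Fermat.Agent.LT.T6.H277.NormalForm
import Fermat.Agent.LT.T6.H277.H546.PolyNF
import Fermat.Agent.LT.T6.H926.DiscUnit

/-!
# Row LT, tower T6, sub-leaf T6.13.3b.1 `NFExistsC865` (registry 1318) -- helper811, OFF-MAIN

`nfExistsC811 : H865.NFExistsC865`: ADAPTER.  `H277.exists_nf277` (helper277, `T6/H277/NormalForm.lean`)
gives the normal form together with `ordDet γ = 2 j'`, `ordDisc γ = 2 j' + 2 r'`; the exponents are
therefore the GIVEN ones.  Inputs: `polyNFC_h546` (helper546), `companionC277` (helper277),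
`discUnitC_926` (helper926), all vendored byte-identical.
-/

set_option autoImplicit false

open scoped Matrix

noncomputable section

namespace Fermat.Agent.LT.T6.H811

open Fermat.Agent.LT.T6 Fermat.Agent.LT.T6.H60 Fermat.Agent.LT.T6.H277 Fermat.Agent.LT.T6.H865

/-- The normal form with the given exponents, from the three leaves of helper277's cut. -/
theorem nfExists_of811 (hP : PolyNFC) (hC : CompanionC) (hD : DiscUnitC) : NFExistsC865 := by
  intro k _ _ q hk γ j r _ hE hR hj hr
  obtain ⟨ϖ, j', r', a, w, u, y, x, hnf, hy, hj', hr'⟩ := exists_nf277 hP hC hD hk γ hE hR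
  have ej : j' = j := by
    have : 2 * j' = 2 * j := by rw [← hj', hj]
    omega
  have er : r' = r := by
    have : 2 * j' + 2 * (r' : ℤ) = 2 * j + 2 * (r : ℤ) := by rw [← hr', hr]
    omega
  subst ej
  subst er
  refine ⟨ϖ, a, w, u, y, x, hnf, ?_⟩
  rw [hy]
  group

/-- **T6.13.3b.1 (NFExists)**, unconditional. -/
theorem nfExistsC811 : NFExistsC865 :=
  nfExists_of811 H546.polyNFC_h546 companionC277 Fermat.Agent.LT.T6.H926.discUnitC_926

end Fermat.Agent.LT.T6.H811

end
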