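import Fermat.Agent.LT.T6.H783.BadSpec

/-!
# Row LT, tower T6, sub-leaf T6.18e `AddC783` (additivity of orbit sums) -- helper811, OFF-MAIN

`addC811 : H783.AddC783` (sub-spec `LT/T6/H783/BadSpec.lean` of helper783, on `T6/Spec.lean` v2 of
helper22).  Pure finset bookkeeping, any valued field:

* `InU m` is a subgroup (`inU_subgrp811`);
* the weight `y ↦ f y * [T_y^c : T_y^c ∩ U]` is constant on the `U`-conjugacy orbits
  (`cIndex_conj811`);
* a weighted sum over a system of pairwise inequivalent representatives only depends on the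
  orbits met by the support (`sum_reps_eq811`);
* `R := R_f ∪ {y ∈ R_g : y is not equivalent to an element of R_f}` (`orbSumGen_add811`).
-/

set_option autoImplicit false

open scoped Matrix

noncomputable section

namespace Fermat.Agent.LT.T6.H811

open Fermat.Agent.LT.T6 Fermat.Agent.LT.T6.H783

/-! ## General groups -/

section General

variable {Γ : Type} [Group Γ]

/-- `y'` is `s`-conjugate to `y` by an element of `U`. -/
def TwEq811 (s : Γ →* Γ) (U : Γ → Prop) (y y' : Γ) : Prop :=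
  ∃ u : Γ, U u ∧ y' = u⁻¹ * y * s u

/-- The predicate `U` describes a subgroup. -/
structure IsSubgrp811 (U : Γ → Prop) : Prop where
  one : U 1
  mul : ∀ a b : Γ, U a → U b → U (a * b)
  inv : ∀ a : Γ, U a → U a⁻¹

variable {s : Γ →* Γ} {U : Γ → Prop}

lemma twEq_refl811 (hU : IsSubgrp811 U) (y : Γ) : TwEq811 s U y y :=
  ⟨1, hU.one, by simp⟩

lemma twEq_symm811 (hU : IsSubgrp811 U) {y y' : Γ} (h : TwEq811 s U y y') : TwEq811 s U y' y := by
  obtain ⟨u, hu, rfl⟩ := h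
  refine ⟨u⁻¹, hU.inv u hu, ?_⟩
  simp [mul_assoc]

lemma twEq_trans811 (hU : IsSubgrp811 U) {y y' y'' : Γ} (h : TwEq811 s U y y')
    (h' : TwEq811 s U y' y'') : TwEq811 s U y y'' := by
  obtain ⟨u, hu, rfl⟩ := h
  obtain ⟨v, hv, rfl⟩ := h'
  refine ⟨u * v, hU.mul u v hu hv, ?_⟩
  simp [mul_assoc]

/-- A sum of an orbit-invariant weight over a system of pairwise inequivalent representatives
only depends on the orbits met by the support of the weight. -/
lemma sum_reps_eq811 (hU : IsSubgrp811 U) (h : Γ → ℂ)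
    (hinv : ∀ u y : Γ, U u → h (u⁻¹ * y * s u) = h y)
    (R R' : Finset Γ)
    (hR : ∀ y ∈ R, ∀ y' ∈ R, TwEq811 s U y y' → y = y')
    (hR' : ∀ y ∈ R', ∀ y' ∈ R', TwEq811 s U y y' → y = y')
    (h1 : ∀ y ∈ R, h y ≠ 0 → ∃ y' ∈ R', TwEq811 s U y' y)
    (h2 : ∀ y' ∈ R', h y' ≠ 0 → ∃ y ∈ R, TwEq811 s U y y') :
    ∑ y ∈ R, h y = ∑ y ∈ R', h y := by
  classical
  have hval : ∀ y y' : Γ, TwEq811 s U y y' → h y' = h y := by
    rintro y y' ⟨u, hu, rfl⟩
    exact hinv u y hu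
  refine Finset.sum_bij_ne_zero (fun a ha hne => Classical.choose (h1 a ha hne)) ?_ ?_ ?_ ?_
  · intro a ha hne
    exact (Classical.choose_spec (h1 a ha hne)).1
  · intro a₁ ha₁ hne₁ a₂ ha₂ hne₂ heq
    have e₁ := (Classical.choose_spec (h1 a₁ ha₁ hne₁)).2
    have e₂ := (Classical.choose_spec (h1 a₂ ha₂ hne₂)).2
    rw [heq] at e₁
    exact hR a₁ ha₁ a₂ ha₂ (twEq_trans811 hU (twEq_symm811 hU e₁) e₂)
  · intro b hb hne
    obtain ⟨a, ha, hab⟩ := h2 b hb hne
    have hane : h a ≠ 0 := by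
      rw [← hval a b hab]
      exact hne
    refine ⟨a, ha, hane, ?_⟩
    have e := (Classical.choose_spec (h1 a ha hane)).2
    have m := (Classical.choose_spec (h1 a ha hane)).1
    exact hR' _ m b hb (twEq_trans811 hU e hab)
  · intro a ha hne
    exact hval _ _ (Classical.choose_spec (h1 a ha hne)).2

/-- **Additivity of orbit sums** (general form). -/
theorem orbSumGen_add811 (s : Γ →* Γ) (U : Γ → Prop) (C : Γ → Γ → Prop) (hU : IsSubgrp811 U)
    (f g : Γ → ℂ)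
    (hf : ∀ u y : Γ, U u → f (u⁻¹ * y * s u) = f y)
    (hg : ∀ u y : Γ, U u → g (u⁻¹ * y * s u) = g y)
    (hC : ∀ u y : Γ, U u → cIndex U C (u⁻¹ * y * s u) = cIndex U C y)
    (δ : Γ) (c d : ℂ) (hc : IsOrbSumGen s U C f δ c) (hd : IsOrbSumGen s U C g δ d) :
    IsOrbSumGen s U C (f + g) δ (c + d) := by
  classical
  obtain ⟨Rf, hf1, hf2, hf3, hfc⟩ := hc
  obtain ⟨Rg, hg1, hg2, hg3, hgc⟩ := hd
  set Rg' : Finset Γ := Rg.filter (fun y => ¬ ∃ y' ∈ Rf, TwEq811 s U y' y) with hRg'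
  have memRg' : ∀ y, y ∈ Rg' ↔ y ∈ Rg ∧ ¬ ∃ y' ∈ Rf, TwEq811 s U y' y := by
    intro y
    simp [hRg']
  have hcl : ∀ y ∈ Rf ∪ Rg', ∃ x : Γ, y = x⁻¹ * δ * s x := by
    intro y hy
    rcases Finset.mem_union.1 hy with h | h
    · exact hf1 y h
    · exact hg1 y ((memRg' y).1 h).1
  have hpw : ∀ y ∈ Rf ∪ Rg', ∀ y' ∈ Rf ∪ Rg', TwEq811 s U y y' → y = y' := by
    intro y hy y' hy' hyy'
    rcases Finset.mem_union.1 hy with h | h <;> rcases Finset.mem_union.1 hy' with h' | h'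
    · exact hf2 y h y' h' hyy'
    · exact absurd ⟨y, h, hyy'⟩ ((memRg' y').1 h').2
    · exact absurd ⟨y', h', twEq_symm811 hU hyy'⟩ ((memRg' y).1 h).2
    · exact hg2 y ((memRg' y).1 h).1 y' ((memRg' y').1 h').1 hyy'
  have covf : ∀ y : Γ, (∃ x : Γ, y = x⁻¹ * δ * s x) → f y ≠ 0 →
      ∃ y' ∈ Rf ∪ Rg', TwEq811 s U y' y := by
    intro y hy hne
    obtain ⟨y', hy', hyy'⟩ := hf3 y hy hne
    exact ⟨y', Finset.mem_union_left _ hy', hyy'⟩
  have covg : ∀ y : Γ, (∃ x : Γ, y = x⁻¹ * δ * s x) → g y ≠ 0 →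
      ∃ y' ∈ Rf ∪ Rg', TwEq811 s U y' y := by
    intro y hy hne
    obtain ⟨y', hy', hyy'⟩ := hg3 y hy hne
    by_cases hex : ∃ y'' ∈ Rf, TwEq811 s U y'' y'
    · obtain ⟨y'', hy'', h''⟩ := hex
      exact ⟨y'', Finset.mem_union_left _ hy'', twEq_trans811 hU h'' hyy'⟩
    · exact ⟨y', Finset.mem_union_right _ ((memRg' y').2 ⟨hy', hex⟩), hyy'⟩
  have wf : ∀ u y : Γ, U u →
      (fun y => f y * (cIndex U C y : ℂ)) (u⁻¹ * y * s u) = (fun y => f y * (cIndex U C y : ℂ)) y := by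
    intro u y hu
    simp only [hf u y hu, hC u y hu]
  have wg : ∀ u y : Γ, U u →
      (fun y => g y * (cIndex U C y : ℂ)) (u⁻¹ * y * s u) = (fun y => g y * (cIndex U C y : ℂ)) y := by
    intro u y hu
    simp only [hg u y hu, hC u y hu]
  have sf : ∑ y ∈ Rf ∪ Rg', f y * (cIndex U C y : ℂ) = ∑ y ∈ Rf, f y * (cIndex U C y : ℂ) := by
    refine sum_reps_eq811 hU (fun y => f y * (cIndex U C y : ℂ)) wf (Rf ∪ Rg') Rf hpw hf2 ?_ ?_
    · intro y hy hne
      exact hf3 y (hcl y hy) (left_ne_zero_of_mul hne)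
    · intro y' hy' _
      exact ⟨y', Finset.mem_union_left _ hy', twEq_refl811 hU y'⟩
  have sg : ∑ y ∈ Rf ∪ Rg', g y * (cIndex U C y : ℂ) = ∑ y ∈ Rg, g y * (cIndex U C y : ℂ) := by
    refine sum_reps_eq811 hU (fun y => g y * (cIndex U C y : ℂ)) wg (Rf ∪ Rg') Rg hpw hg2 ?_ ?_
    · intro y hy hne
      exact hg3 y (hcl y hy) (left_ne_zero_of_mul hne)
    · intro y' hy' hne
      exact covg y' (hg1 y' hy') (left_ne_zero_of_mul hne)
  refine ⟨Rf ∪ Rg', hcl, hpw, ?_, ?_⟩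
  · intro y hy hne
    by_cases hfy : f y = 0
    · have hgy : g y ≠ 0 := by
        intro hgy
        apply hne
        simp [hfy, hgy]
      exact covg y hy hgy
    · exact covf y hy hfy
  · rw [hfc, hgc, ← sf, ← sg, ← Finset.sum_add_distrib]
    refine Finset.sum_congr rfl ?_
    intro y _
    simp only [Pi.add_apply]
    ring

end General

/-! ## `GL₂` of a valued field -/

section GL2

variable {k : Type} [Field k] [Valued k Γ₀]

omit [Valued k Γ₀] in
lemma glAut_refl811 (x : GL (Fin 2) k) : glAut (RingEquiv.refl k) x = x := by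
  apply Units.ext
  ext i j
  simp [glAut]

/-- All entries of `M` have valuation `≤ exp (-n)`. -/
def SmallM811 (n : ℕ) (M : Matrix (Fin 2) (Fin 2) k) : Prop :=
  ∀ i j : Fin 2, Valued.v (M i j) ≤ WithZero.exp (-(n : ℤ))

lemma exp_neg_le_one811 (n : ℕ) : (WithZero.exp (-(n : ℤ)) : Γ₀) ≤ 1 := by
  rw [← WithZero.exp_zero]
  exact WithZero.exp_le_exp.2 (by omega)

lemma smallM_add811 {n : ℕ} {A B : Matrix (Fin 2) (Fin 2) k} (hA : SmallM811 n A)
    (hB : SmallM811 n B) : SmallM811 n (A + B) := by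
  intro i j
  rw [Matrix.add_apply]
  exact (Valuation.map_add_le_max' _ _ _).trans (max_le (hA i j) (hB i j))

lemma smallM_mul811 {n : ℕ} {A B : Matrix (Fin 2) (Fin 2) k} (hA : SmallM811 n A)
    (hB : SmallM811 n B) : SmallM811 n (A * B) := by
  intro i j
  rw [Matrix.mul_apply]
  refine Valuation.map_sum_le _ ?_
  intro l _
  rw [Valuation.map_mul]
  calc Valued.v (A i l) * Valued.v (B l j)
      ≤ WithZero.exp (-(n : ℤ)) * 1 :=
        mul_le_mul' (hA i l) ((hB l j).trans (exp_neg_le_one811 n))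
    _ = WithZero.exp (-(n : ℤ)) := mul_one _

lemma inU_iff811 (n : ℕ) (g : GL (Fin 2) k) :
    InU n g ↔ SmallM811 n ((g : Matrix (Fin 2) (Fin 2) k) - 1) ∧
      SmallM811 n (((g⁻¹ : GL (Fin 2) k) : Matrix (Fin 2) (Fin 2) k) - 1) := by
  constructor
  · intro h
    exact ⟨fun i j => (h i j).1, fun i j => (h i j).2⟩
  · intro h i j
    exact ⟨h.1 i j, h.2 i j⟩

lemma smallM_mul_sub_one811 {n : ℕ} {A B : Matrix (Fin 2) (Fin 2) k} (hA : SmallM811 n (A - 1))
    (hB : SmallM811 n (B - 1)) : SmallM811 n (A * B - 1) := by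
  have e : A * B - 1 = (A - 1) + (B - 1) + (A - 1) * (B - 1) := by noncomm_ring
  rw [e]
  exact smallM_add811 (smallM_add811 hA hB) (smallM_mul811 hA hB)

lemma inU_subgrp811 (n : ℕ) : IsSubgrp811 (InU (k := k) n) where
  one := by
    rw [inU_iff811]
    constructor <;> intro i j <;> simp
  mul := by
    intro a b ha hb
    rw [inU_iff811] at ha hb ⊢
    refine ⟨?_, ?_⟩
    · rw [Matrix.GeneralLinearGroup.coe_mul]
      exact smallM_mul_sub_one811 ha.1 hb.1
    · rw [mul_inv_rev, Matrix.GeneralLinearGroup.coe_mul]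
      exact smallM_mul_sub_one811 hb.2 ha.2
  inv := by
    intro a ha
    rw [inU_iff811] at ha ⊢
    rw [inv_inv]
    exact ⟨ha.2, ha.1⟩

omit [Valued k Γ₀] in
lemma trace_conj811 (u t : GL (Fin 2) k) :
    ((u⁻¹ * t * u : GL (Fin 2) k) : Matrix (Fin 2) (Fin 2) k).trace
      = (t : Matrix (Fin 2) (Fin 2) k).trace := by
  rw [Matrix.GeneralLinearGroup.coe_mul, Matrix.GeneralLinearGroup.coe_mul, Matrix.trace_mul_comm,
    ← Matrix.mul_assoc, ← Matrix.GeneralLinearGroup.coe_mul, mul_inv_cancel]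
  simp

omit [Valued k Γ₀] in
lemma det_conj811 (u t : GL (Fin 2) k) :
    ((u⁻¹ * t * u : GL (Fin 2) k) : Matrix (Fin 2) (Fin 2) k).det
      = (t : Matrix (Fin 2) (Fin 2) k).det := by
  have h : (u⁻¹ * t * u : GL (Fin 2) k) = u⁻¹ * (t * u) := mul_assoc _ _ _
  rw [h, Matrix.GeneralLinearGroup.coe_mul, Matrix.det_mul, mul_comm, ← Matrix.det_mul,
    ← Matrix.GeneralLinearGroup.coe_mul, mul_assoc, mul_inv_cancel, mul_one]

lemma inTwCentC_conj811 (u y t : GL (Fin 2) k) (h : InTwCentC (RingEquiv.refl k) y t) :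
    InTwCentC (RingEquiv.refl k) (u⁻¹ * y * u) (u⁻¹ * t * u) := by
  obtain ⟨h1, h2, h3⟩ := h
  refine ⟨?_, ?_, ?_⟩
  · unfold InTwCent at h1 ⊢
    rw [glAut_refl811] at h1 ⊢
    calc (u⁻¹ * t * u)⁻¹ * (u⁻¹ * y * u) * (u⁻¹ * t * u)
        = u⁻¹ * (t⁻¹ * y * t) * u := by group
      _ = u⁻¹ * y * u := by rw [h1]
  · rw [trace_conj811]
    exact h2
  · rw [det_conj811]
    exact h3

/-- The index `[T_y^c : T_y^c ∩ U]` is constant on the `U`-conjugacy orbits. -/
lemma cIndex_conj811 (n : ℕ) (u y : GL (Fin 2) k) (hu : InU n u) :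
    cIndex (InU n) (InTwCentC (RingEquiv.refl k)) (u⁻¹ * y * u)
      = cIndex (InU n) (InTwCentC (RingEquiv.refl k)) y := by
  have hU := inU_subgrp811 (k := k) n
  unfold cIndex
  have hinj : Function.Injective (fun c : Set (GL (Fin 2) k) => (fun g => u⁻¹ * g * u) '' c) := by
    apply Set.image_injective.2
    intro a b hab
    simpa using hab
  have hcos : ∀ t : GL (Fin 2) k,
      (fun g => u⁻¹ * g * u) '' {g : GL (Fin 2) k | ∃ v, InU n v ∧ g = t * v}
        = {g : GL (Fin 2) k | ∃ v, InU n v ∧ g = (u⁻¹ * t * u) * v} := by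
    intro t
    ext g
    constructor
    · rintro ⟨g', ⟨v, hv, rfl⟩, rfl⟩
      refine ⟨u⁻¹ * v * u, hU.mul _ _ (hU.mul _ _ (hU.inv u hu) hv) hu, ?_⟩
      group
    · rintro ⟨v, hv, rfl⟩
      refine ⟨t * (u * v * u⁻¹), ⟨u * v * u⁻¹, hU.mul _ _ (hU.mul _ _ hu hv) (hU.inv u hu), rfl⟩, ?_⟩
      group
  have hset : {c : Set (GL (Fin 2) k) | ∃ t, InTwCentC (RingEquiv.refl k) (u⁻¹ * y * u) t ∧
        c = {g | ∃ v, InU n v ∧ g = t * v}}
      = (fun c : Set (GL (Fin 2) k) => (fun g => u⁻¹ * g * u) '' c) ''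
        {c : Set (GL (Fin 2) k) | ∃ t, InTwCentC (RingEquiv.refl k) y t ∧
          c = {g | ∃ v, InU n v ∧ g = t * v}} := by
    ext c
    constructor
    · rintro ⟨t', ht', rfl⟩
      refine ⟨{g | ∃ v, InU n v ∧ g = (u * t' * u⁻¹) * v}, ⟨u * t' * u⁻¹, ?_, rfl⟩, ?_⟩
      · have := inTwCentC_conj811 u⁻¹ (u⁻¹ * y * u) t' ht'
        have e1 : u⁻¹⁻¹ * (u⁻¹ * y * u) * u⁻¹ = y := by group
        have e2 : u⁻¹⁻¹ * t' * u⁻¹ = u * t' * u⁻¹ := by group
        rw [e1, e2] at this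
        exact this
      · show (fun g => u⁻¹ * g * u) '' _ = _
        rw [hcos]
        have e : u⁻¹ * (u * t' * u⁻¹) * u = t' := by group
        rw [e]
    · rintro ⟨c', ⟨t, ht, rfl⟩, rfl⟩
      refine ⟨u⁻¹ * t * u, inTwCentC_conj811 u y t ht, ?_⟩
      exact hcos t
  rw [hset]
  exact Set.ncard_image_of_injective _ hinj

/-- **T6.18e**: orbit sums are additive in the function. -/
theorem addC811 : AddC783 := by
  intro k _ _ m f g hf hg γ c d hc hd
  have hU := inU_subgrp811 (k := k) m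
  unfold IsOrbSum IsTwOrbSum at hc hd ⊢
  refine orbSumGen_add811 _ _ _ hU f g ?_ ?_ ?_ γ c d hc hd
  · intro u y hu
    rw [glAut_refl811]
    exact hf u⁻¹ u y (hU.inv u hu) hu
  · intro u y hu
    rw [glAut_refl811]
    exact hg u⁻¹ u y (hU.inv u hu) hu
  · intro u y hu
    rw [glAut_refl811]
    exact cIndex_conj811 m u y hu

end GL2

end Fermat.Agent.LT.T6.H811

end
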